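/-
Programme T1B (S44), cell TORIC50, brick (K2) Part B (helper16): the valuation-theoretic input
`Toric98.K2Datum` of helper98's trace lemma, ABSTRACT FORM.

`O ⊂ K` a DVR with uniformiser `π` and residue characteristic `q`; `F / F₀` an extension of function
fields over `K` of degree `q + 1`; `Va Vb` two DIFFERENT Gauss valuation rings of `F`
(`GaussEmb22.IsGaussPullback` along expansions `ιa ιb : F →ₐ[K] K((q))`), such that on `F₀`
* `ιa` restricts to an expansion `ι₀` of `F₀`,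
* `ιb` restricts to `V_q ∘ ι₀'` (`V_q = qExpand q`) for a second expansion `ι₀'` of `F₀` with the
  SAME Gauss ring as `ι₀` (isometry);
`θ ∈ Va ∩ Vb` whose `ιb`-residue has order prime to `q`, and `a ∈ F₀` Gauss-integral with
`(ιb θ)^q ≡ V_q (ι₀' a) mod π` (Kronecker).  Then there is a `K2Datum ϖ q Va Vb`, `ϖ = π ∈ F₀`.

In the model (`Datum.lean`): `(Va, Vb) = (O1, O2)` for `F₀ → F` the degeneracy map `alpha`, and
`(Va, Vb) = (O2, O1)` for `beta`.
-/
import Mathlib
import Fermat.Agent.T1B.Toric98.Trace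
import Fermat.Agent.T1B.GaussW95.Descent
import Fermat.Agent.ES.N34.GaussEmb22
import Fermat.Agent.ES.N34.KronN14
import Fermat.Agent.RED.PUR.SepLaurent25
import Fermat.Agent.RED.PUR.UniqueExt20
import Fermat.Prelude.Def_AlgebraicCurve_Correspondence

set_option autoImplicit false
set_option linter.unusedSectionVars false

noncomputable section

open HahnSeries ModularCurve

namespace Fermat.Agent.T1B.K2Model16

open Fermat.Agent.RED.PUR.GaussGen8 Fermat.Agent.ES.N34.GaussEmb22 Fermat.Agent.ES.N34.KronN14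
open Fermat.Agent.T1B.Toric98

variable {K : Type*} [Field K] {O : ValuationSubring K} [IsDiscreteValuationRing ↥O] {π : ↥O}
  {F₀ F : Type*} [Field F₀] [Field F] [Algebra K F₀] [Algebra K F] [Algebra F₀ F]
  [IsScalarTower K F₀ F]

section PiO

variable {ι : F →ₐ[K] LaurentSeries K} {V : ValuationSubring F}

theorem algebraMap_varpi (π : ↥O) :
    algebraMap F₀ F (algebraMap K F₀ ((π : ↥O) : K)) = algebraMap K F ((π : ↥O) : K) :=
  (IsScalarTower.algebraMap_apply K F₀ F _).symm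

/-- `x ∈ ϖ V` iff the expansion of `x` lies in `π · gaussRing`. -/
theorem piO_iff (hV : IsGaussPullback O ι V) (hπ : Irreducible π) (x : F) :
    PiO (algebraMap K F₀ ((π : ↥O) : K)) V x ↔
      ∃ g ∈ gaussRing O, ι x = HahnSeries.C ((π : ↥O) : K) * g := by
  have hu := isUnif_of_irreducible O hπ
  constructor
  · rintro ⟨c, hc, rfl⟩
    refine ⟨ι c, (hV c).mp hc, ?_⟩
    rw [map_mul, algebraMap_varpi, map_algebraMap]
  · rintro ⟨g, hg, h⟩
    have hπ0 : algebraMap K F ((π : ↥O) : K) ≠ 0 := fun h0 =>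
      hπ.ne_zero (Subtype.ext ((map_eq_zero_iff _ (algebraMap K F).injective).mp h0))
    refine ⟨x / algebraMap K F ((π : ↥O) : K), ?_, ?_⟩
    · rw [hV, map_div₀, map_algebraMap, h, mul_comm, mul_div_assoc, div_self (piK_ne_zero hu),
        mul_one]
      exact hg
    · rw [algebraMap_varpi]
      field_simp

/-- elements of valuation `< 1` lie in `ϖ V`. -/
theorem piO_of_val_lt_one (hV : IsGaussPullback O ι V) (hπ : Irreducible π) {x : F}
    (h : V.valuation x < 1) : PiO (algebraMap K F₀ ((π : ↥O) : K)) V x := by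
  rw [Fermat.Agent.RED.PUR.UniqueExt20.val_lt_one_iff] at h
  rcases h with rfl | h
  · exact PiO.zero
  · have hx : x ∈ V := (V.mem_or_inv_mem x).resolve_right h
    obtain ⟨c, hc, e⟩ := unif hV hπ x hx h
    exact ⟨c, hc, by rw [algebraMap_varpi]; exact e⟩

end PiO

/-- **The abstract `K2Datum`.** -/
theorem nonempty_k2Datum (hπ : Irreducible π) (q : ℕ) [hq : Fact q.Prime] [CharP (Res O) q]
    {ιa ιb : F →ₐ[K] LaurentSeries K} {Va Vb : ValuationSubring F}
    (hVa : IsGaussPullback O ιa Va) (hVb : IsGaussPullback O ιb Vb) (hne : Va ≠ Vb)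
    (ι₀ ι₀' : F₀ →ₐ[K] LaurentSeries K)
    (hfrac : ∀ x : F₀, ι₀' x ∈ fracField O)
    (hiso : ∀ x : F₀, ι₀ x ∈ gaussRing O ↔ ι₀' x ∈ gaussRing O)
    (haφ : ∀ x : F₀, ιa (algebraMap F₀ F x) = ι₀ x)
    (hbφ : haveI : NeZero q := ⟨hq.out.ne_zero⟩
      ∀ x : F₀, ιb (algebraMap F₀ F x) = qExpand K q (ι₀' x))
    (θ : F) (hθa : ιa θ ∈ gaussRing O) (hθb : ιb θ ∈ gaussRing O)
    (hθ0 : gaussRed O ⟨ιb θ, hθb⟩ ≠ 0)
    (hθord : IsCoprime (gaussRed O ⟨ιb θ, hθb⟩).order (q : ℤ))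
    (a : F₀) (ha : ι₀ a ∈ gaussRing O)
    (hθp : haveI : NeZero q := ⟨hq.out.ne_zero⟩
      ∃ g ∈ gaussRing O, ιb θ ^ q - qExpand K q (ι₀' a) = HahnSeries.C ((π : ↥O) : K) * g)
    (hrank : Module.finrank F₀ F = q + 1) :
    Nonempty (K2Datum (algebraMap K F₀ ((π : ↥O) : K)) q Va Vb) := by
  classical
  haveI : NeZero q := ⟨hq.out.ne_zero⟩
  have hu := isUnif_of_irreducible O hπ
  have hπK0 : ((π : ↥O) : K) ≠ 0 := fun h => hπ.ne_zero (Subtype.ext h)
  have hϖ0 : algebraMap K F₀ ((π : ↥O) : K) ≠ 0 := fun h0 =>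
    hπK0 ((map_eq_zero_iff _ (algebraMap K F₀).injective).mp h0)
  -- membership of `F₀` in the two rings
  have hmema : ∀ x : F₀, algebraMap F₀ F x ∈ Va ↔ ι₀ x ∈ gaussRing O := fun x => by
    rw [hVa, haφ]
  have hmemb : ∀ x : F₀, algebraMap F₀ F x ∈ Vb ↔ ι₀ x ∈ gaussRing O := fun x => by
    rw [hVb, hbφ, Fermat.Agent.T1B.GaussW95.qExpand_mem_gaussRing_iff hu q (hfrac x), hiso]
  have hcomap : ∀ x : F₀, algebraMap F₀ F x ∈ Va ↔ algebraMap F₀ F x ∈ Vb := fun x =>
    (hmema x).trans (hmemb x).symm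
  -- incomparability
  have hfin : Module.Finite F₀ F := Module.finite_of_finrank_pos (by rw [hrank]; omega)
  have halg : Algebra.IsAlgebraic F₀ F := Algebra.IsAlgebraic.of_finite F₀ F
  have hcm : Va.comap (algebraMap F₀ F) = Vb.comap (algebraMap F₀ F) := by
    ext x
    exact hcomap x
  have hab : ¬ Va ≤ Vb :=
    Fermat.Agent.ES.N34.TwoExt22.not_le_of_ne_of_comap_eq (E := F₀) hne hcm
  have hba : ¬ Vb ≤ Va :=
    Fermat.Agent.ES.N34.TwoExt22.not_le_of_ne_of_comap_eq (E := F₀) hne.symm hcm.symm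
  obtain ⟨w, hwa, hwb⟩ := Fermat.Agent.RED.PUR.UniqueExt20.exists_approx hab hba
  -- `q ∈ π O`
  have hqm : ((q : ℕ) : ↥O) ∈ IsLocalRing.maximalIdeal ↥O := by
    rw [← IsLocalRing.residue_eq_zero_iff, map_natCast]
    exact CharP.cast_eq_zero (Res O) q
  rw [hπ.maximalIdeal_eq, Ideal.mem_span_singleton] at hqm
  obtain ⟨r, hr⟩ := hqm
  refine ⟨{
    w := w
    θ := θ
    a := a
    hcomap := hcomap
    pi_nonunit1 := by rw [algebraMap_varpi]; exact pi_inv_not_mem hVa hπ
    pi_nonunit2 := by rw [algebraMap_varpi]; exact pi_inv_not_mem hVb hπ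
    unif1 := fun x hx hx' => by
      obtain ⟨c, hc, e⟩ := unif hVa hπ x hx hx'
      exact ⟨c, hc, by rw [algebraMap_varpi]; exact e⟩
    hw1 := by
      have h1 : Va.valuation (w - 1) < 1 := by
        have : w - 1 = -(1 - w) := by ring
        rw [this, Valuation.map_neg]
        exact hwa
      exact piO_of_val_lt_one hVa hπ h1
    hw2 := piO_of_val_lt_one hVb hπ hwb
    hθ1 := (hVa θ).mpr hθa
    hθ2 := (hVb θ).mpr hθb
    ha := (hmema a).mpr ha
    hθp := by
      rw [piO_iff hVb hπ]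
      obtain ⟨g, hg, h⟩ := hθp
      exact ⟨g, hg, by rw [map_sub, map_pow, hbφ, h]⟩
    hind := ?_
    hp := ?_
    hrank := hrank }⟩
  · -- residual independence of `1, θ, …, θ^(q-1)`
    intro c hc hsum i
    rw [piO_iff hVb hπ] at hsum
    obtain ⟨g, hg, hsum⟩ := hsum
    have hC : ∀ i, ι₀' (c i) ∈ gaussRing O := fun i => (hiso _).mp ((hmema _).mp (hc i))
    -- the relation in the Gauss ring
    set Θ : gaussRing O := ⟨ιb θ, hθb⟩ with hΘ
    set Cq : Fin q → gaussRing O := fun i =>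
      ⟨qExpand K q (ι₀' (c i)), qExpand_mem_gaussRing q (hC i)⟩ with hCq
    have hrel : ∑ i, Cq i * Θ ^ (i : ℕ) = constG O π * ⟨g, hg⟩ := by
      apply Subtype.ext
      rw [Subring.coe_mul]
      show _ = HahnSeries.C ((π : ↥O) : K) * g
      rw [← hsum, map_sum]
      have : (((∑ i, Cq i * Θ ^ (i : ℕ) : gaussRing O)) : LaurentSeries K) =
          ∑ i, ((Cq i * Θ ^ (i : ℕ) : gaussRing O) : LaurentSeries K) :=
        map_sum (gaussRing O).subtype _ _
      rw [this]
      refine Finset.sum_congr rfl fun i _ => ?_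
      rw [map_mul, map_pow, hbφ]
      rfl
    have hred := congrArg (gaussRed O) hrel
    rw [map_mul, gaussRed_unif hu, zero_mul, map_sum] at hred
    -- the coefficients
    set y : LaurentSeries (Res O) := gaussRed O Θ with hy
    set cc : ℕ → LaurentSeries (Res O) := fun j =>
      if hj : j < q then qExpand (Res O) q (gaussRed O ⟨ι₀' (c ⟨j, hj⟩), hC ⟨j, hj⟩⟩) else 0
      with hcc
    have hccord : ∀ j, (q : ℤ) ∣ (cc j).order := by
      intro j
      simp only [hcc]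
      split_ifs with hj
      · exact Fermat.Agent.IG.PR.RamDeg25.dvd_order_qExpand q _
      · rw [order_zero]; exact dvd_zero _
    have hsum0 : ∑ j ∈ Finset.range q, cc j * y ^ j = 0 := by
      rw [← hred, Finset.sum_range]
      refine Finset.sum_congr rfl fun i _ => ?_
      simp only [hcc, dif_pos i.2, Fin.eta]
      rw [map_mul, map_pow]
      congr 1
      exact (gaussRed_qExpand q ⟨ι₀' (c i), hC i⟩).symm
    have hzero := Fermat.Agent.RED.PUR.SepLaurent25.eq_zero_of_sum_mul_pow_eq_zero hθ0 hθord cc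
      hccord hsum0 i i.2
    simp only [hcc, dif_pos i.2, Fin.eta] at hzero
    have hzero' : gaussRed O ⟨ι₀' (c i), hC i⟩ = 0 :=
      qExpand_injective (R := Res O) (N := q) (by rw [hzero, map_zero])
    obtain ⟨g', hg'⟩ := (gaussRed_eq_zero_iff hu _).mp hzero'
    have hg'' : ι₀' (c i) = HahnSeries.C ((π : ↥O) : K) * (g' : LaurentSeries K) :=
      congrArg (fun y : ↥(gaussRing O) => (y : LaurentSeries K)) hg'
    refine ⟨c i / algebraMap K F₀ ((π : ↥O) : K), ?_, by field_simp⟩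
    rw [hmema, hiso, map_div₀, AlgHom.commutes, algebraMap_eq_C, hg'', mul_comm, mul_div_assoc,
      div_self (piK_ne_zero hu), mul_one]
    exact g'.2
  · -- `q ∈ ϖ O₀`
    refine ⟨algebraMap K F₀ ((r : ↥O) : K), ?_, ?_⟩
    · rw [← IsScalarTower.algebraMap_apply]
      exact algebraMap_mem hVa r
    · rw [← map_mul]
      have h1 : ((q : ℕ) : K) = ((π : ↥O) : K) * ((r : ↥O) : K) := by
        have := congrArg (fun x : ↥O => (x : K)) hr
        simpa using this
      rw [← h1, map_natCast]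

/-- **The abstract `K2Datum`, `Along` form**: the `F₀`-algebra structure of `F` is
`algebraAlong φ` (Prelude) for a `K`-algebra homomorphism `φ : F₀ →ₐ[K] F`.  (Use this form at
concrete types: no instance problem mentioning both `F₀` and `F` has to be solved there.) -/
theorem nonempty_k2Datum_along {K : Type*} [Field K] {O : ValuationSubring K}
    [IsDiscreteValuationRing ↥O] {π : ↥O} {F₀ F : Type*} [Field F₀] [Field F] [Algebra K F₀]
    [Algebra K F] (φ : F₀ →ₐ[K] F)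
    (hπ : Irreducible π) (q : ℕ) [hq : Fact q.Prime] [CharP (Res O) q]
    {ιa ιb : F →ₐ[K] LaurentSeries K} {Va Vb : ValuationSubring F}
    (hVa : IsGaussPullback O ιa Va) (hVb : IsGaussPullback O ιb Vb) (hne : Va ≠ Vb)
    (ι₀ ι₀' : F₀ →ₐ[K] LaurentSeries K)
    (hfrac : ∀ x : F₀, ι₀' x ∈ fracField O)
    (hiso : ∀ x : F₀, ι₀ x ∈ gaussRing O ↔ ι₀' x ∈ gaussRing O)
    (haφ : ∀ x : F₀, ιa (φ x) = ι₀ x)
    (hbφ : haveI : NeZero q := ⟨hq.out.ne_zero⟩
      ∀ x : F₀, ιb (φ x) = qExpand K q (ι₀' x))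
    (θ : F) (hθa : ιa θ ∈ gaussRing O) (hθb : ιb θ ∈ gaussRing O)
    (hθ0 : gaussRed O ⟨ιb θ, hθb⟩ ≠ 0)
    (hθord : IsCoprime (gaussRed O ⟨ιb θ, hθb⟩).order (q : ℤ))
    (a : F₀) (ha : ι₀ a ∈ gaussRing O)
    (hθp : haveI : NeZero q := ⟨hq.out.ne_zero⟩
      ∃ g ∈ gaussRing O, ιb θ ^ q - qExpand K q (ι₀' a) = HahnSeries.C ((π : ↥O) : K) * g)
    (hrank : AlgebraicCurve.finrankAlong K φ = q + 1) :
    letI := AlgebraicCurve.algebraAlong φ
    Nonempty (K2Datum (algebraMap K F₀ ((π : ↥O) : K)) q Va Vb) := by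
  letI := AlgebraicCurve.algebraAlong φ
  haveI := AlgebraicCurve.isScalarTower_along φ
  exact nonempty_k2Datum hπ q hVa hVb hne ι₀ ι₀' hfrac hiso haφ hbφ θ hθa hθb hθ0 hθord a ha hθp
    hrank

end Fermat.Agent.T1B.K2Model16
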