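/-
Programme T1B (S44), cell TORIC50, brick (K2) Part B (helper16): THE TWO `Toric98.K2Datum` INSTANCES
ON THE `ES/N34/ModelDefs9` DATA.

`F₀ = FK M' K`, `F = FK (M' * q) K`, `R = AK A K` a DVR with uniformiser `π`, residue
characteristic `q`, `q ∤ M'`; `hu : IsUnif (AK A K) π`, `hE : FK (M' * q) K ≤ fracField (AK A K)`.

* `nonempty_k2Datum_alpha` : `F` an `F₀`-algebra along `alpha K M' q` (`algebraAlong`), rings
  `(O1, O2)`; `θ = j(𝐪^{M' q})`, `a = j(𝐪^{M'})`;
* `nonempty_k2Datum_beta`  : `F` an `F₀`-algebra along `beta K M' q`, rings `(O2, O1)`;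
  `θ = j(𝐪)`, `a = j(𝐪)`;
both `Nonempty (K2Datum (algebraMap R F₀ π) q _ _)`, the shape consumed by `Toric98.k2_of_datum`
(`_K` variants: `ϖ = algebraMap K F₀ ↑π`).  `k2DatumAlpha`, `k2DatumBeta`: chosen data.

IMPLEMENTATION NOTE.  Every hypothesis of `Abstract.nonempty_k2Datum_along` is first proved as a
separate lemma in the EXACT expected shape: instance problems mentioning both `↥(FK M' K)` and
`↥(FK (M' * q) K)` (e.g. `SMul`, `IsScalarTower`) and kernel conversions inside one big term take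
minutes (or run out of memory) at these concrete types.
-/
import Mathlib
import Fermat.Agent.T1B.K2Model16.Abstract
import Fermat.Agent.ES.N34.IsoM25
import Fermat.Agent.ES.N34.FrickeV11
import Fermat.Agent.ES.N34.ModelGlue22
import Fermat.Agent.ES.N34.OneNeTwo3
import Fermat.Agent.ES.HECKE.AlongDegree25
import Fermat.Agent.T1.Assembly41.FastInst

set_option autoImplicit false
set_option linter.unusedSectionVars false
set_option synthInstance.maxHeartbeats 400000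

noncomputable section

open HahnSeries ModularCurve AlgebraicCurve

namespace Fermat.Agent.T1B.K2Model16

open Fermat.Agent.RED.Interface4 Fermat.Agent.RED.PUR.GaussGen8 Fermat.Agent.RED.PUR.GaussBridge10
open Fermat.Agent.ES.N34.GaussEmb22 Fermat.Agent.ES.N34.FrickeFK8 Fermat.Agent.ES.N34.ModelDefs9
open Fermat.Agent.ES.N34.ModelGlue22 Fermat.Agent.ES.N34.IsoM25
open Fermat.Agent.T1B.Toric98
open scoped Fermat.Agent.T1.Assembly41.FastInst

variable {A : ValuationSubring Qbar} {K : IntermediateField ℚ Qbar} (M' q : ℕ) [NeZero M']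
  [NeZero q] [hq : Fact q.Prime] [IsDiscreteValuationRing ↥(AK A K)] [CharP (Res (AK A K)) q]
  {π : ↥(AK A K)}

/-! ### Common inputs -/

/-- `j^q ≡ j(𝐪^q) mod π` in the normalisation used below. -/
theorem kron_j' (hu : IsUnif (AK A K) π) :
    ∃ g ∈ gaussRing (AK A K),
      (qExpand (↥K) 1 (jqModC ↥K)) ^ q - qExpand (↥K) q (qExpand (↥K) 1 (jqModC ↥K)) =
        HahnSeries.C ((π : ↥(AK A K)) : ↥K) * g := by
  obtain ⟨g, hg, h⟩ := Fermat.Agent.ES.N34.OneNeTwo3.kron_j q hu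
  refine ⟨-g, neg_mem hg, ?_⟩
  rw [qExpand_one_apply, mul_neg, ← h]
  show _ = -(qExpand (↥K) q (jqModC ↥K) - jqModC ↥K ^ q)
  ring

theorem order_coprime_jq :
    IsCoprime (gaussRed (AK A K) ⟨qExpand (↥K) 1 (jqModC ↥K),
      jqd_mem_gaussRing (AK A K) 1⟩).order (q : ℤ) := by
  rw [order_gaussRed_jqd]
  exact (isCoprime_one_left (x := (q : ℤ))).neg_left

theorem val_mem_fracField (x : ↥(FK M' K)) : (FK M' K).val x ∈ fracField (AK A K) :=
  FK_le_fracField A K M' x.2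

theorem iotaAlg_mem_fracField (x : ↥(FK M' K)) : iotaAlg M' K x ∈ fracField (AK A K) :=
  FK_le_fracField A K M' (frickeFK M' K x).2

theorem iso_val_iotaAlg (hπ : Irreducible π) (hqM : ¬ q ∣ M') (x : ↥(FK M' K)) :
    (FK M' K).val x ∈ gaussRing (AK A K) ↔ iotaAlg M' K x ∈ gaussRing (AK A K) :=
  isoM A K M' q hπ hqM x

/-! ### Along `alpha` -/

theorem val_alpha (x : ↥(FK M' K)) :
    (FK (M' * q) K).val (alpha K M' q x) = (FK M' K).val x := coe_alpha K M' q x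

theorem iota2Alg_alpha (x : ↥(FK M' K)) :
    iota2Alg K M' q (alpha K M' q x) = qExpand (↥K) q (iotaAlg M' K x) :=
  Fermat.Agent.ES.N34.FrickeV11.iota2_alpha (K := K) M' q x

theorem val_jTop_mem :
    (FK (M' * q) K).val (jTop K (M' * q)) ∈ gaussRing (AK A K) :=
  jqd_mem_gaussRing (AK A K) (M' * q)

theorem iota2Alg_jTop :
    iota2Alg K M' q (jTop K (M' * q)) = qExpand (↥K) 1 (jqModC ↥K) := iotaAlg_jTop K (M' * q)

theorem iota2Alg_jTop_mem : iota2Alg K M' q (jTop K (M' * q)) ∈ gaussRing (AK A K) := by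
  rw [iota2Alg_jTop]; exact jqd_mem_gaussRing (AK A K) 1

theorem gaussRed_iota2Alg_jTop_ne_zero :
    gaussRed (AK A K) ⟨iota2Alg K M' q (jTop K (M' * q)), iota2Alg_jTop_mem M' q⟩ ≠ 0 := by
  have hsub : (⟨iota2Alg K M' q (jTop K (M' * q)), iota2Alg_jTop_mem M' q⟩ : gaussRing (AK A K)) =
      ⟨qExpand (↥K) 1 (jqModC ↥K), jqd_mem_gaussRing (AK A K) 1⟩ :=
    Subtype.ext (iota2Alg_jTop M' q)
  rw [hsub]; exact gaussRed_jqd_ne_zero (AK A K) 1

theorem gaussRed_iota2Alg_jTop_order :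
    IsCoprime (gaussRed (AK A K)
      ⟨iota2Alg K M' q (jTop K (M' * q)), iota2Alg_jTop_mem M' q⟩).order (q : ℤ) := by
  have hsub : (⟨iota2Alg K M' q (jTop K (M' * q)), iota2Alg_jTop_mem M' q⟩ : gaussRing (AK A K)) =
      ⟨qExpand (↥K) 1 (jqModC ↥K), jqd_mem_gaussRing (AK A K) 1⟩ :=
    Subtype.ext (iota2Alg_jTop M' q)
  rw [hsub]; exact order_coprime_jq q

theorem val_jTop_M_mem : (FK M' K).val (jTop K M') ∈ gaussRing (AK A K) :=
  jqd_mem_gaussRing (AK A K) M'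

theorem kron_alpha (hu : IsUnif (AK A K) π) :
    ∃ g ∈ gaussRing (AK A K),
      iota2Alg K M' q (jTop K (M' * q)) ^ q - qExpand (↥K) q (iotaAlg M' K (jTop K M')) =
        HahnSeries.C ((π : ↥(AK A K)) : ↥K) * g := by
  rw [iota2Alg_jTop, iotaAlg_jTop]; exact kron_j' q hu

theorem finrankAlong_alpha' (hqM : ¬ q ∣ M') : finrankAlong ↥K (alpha K M' q) = q + 1 :=
  Fermat.Agent.ES.HECKE.AlongDegree25.finrankAlong_alpha (↥K) M' q hq.out hqM

/-- **(K2) datum along `alpha`**, rings `(O1, O2)`, `K`-form of `ϖ`. -/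
theorem nonempty_k2Datum_alpha_K (hπ : Irreducible π) (hu : IsUnif (AK A K) π) (hqM : ¬ q ∣ M')
    (hE : FK (M' * q) K ≤ fracField (AK A K)) :
    letI := algebraAlong (alpha K M' q)
    Nonempty (K2Datum (algebraMap ↥K ↥(FK M' K) ((π : ↥(AK A K)) : ↥K)) q
      (O1 M' q hu hE) (O2 M' q hu hE)) :=
  nonempty_k2Datum_along (alpha K M' q) hπ q
    (isGaussPullback_O1 M' q hu hE) (isGaussPullback_O2 M' q hu hE)
    (Fermat.Agent.ES.N34.OneNeTwo3.o1_ne_o2 M' q hu hE)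
    (FK M' K).val (iotaAlg M' K)
    (iotaAlg_mem_fracField M')
    (iso_val_iotaAlg M' q hπ hqM)
    (val_alpha M' q)
    (iota2Alg_alpha M' q)
    (jTop K (M' * q)) (val_jTop_mem M' q) (iota2Alg_jTop_mem M' q)
    (gaussRed_iota2Alg_jTop_ne_zero M' q) (gaussRed_iota2Alg_jTop_order M' q)
    (jTop K M') (val_jTop_M_mem M') (kron_alpha M' q hu) (finrankAlong_alpha' M' q hqM)

/-! ### Along `beta` -/

theorem iso_iotaAlg_val (hπ : Irreducible π) (hqM : ¬ q ∣ M') (x : ↥(FK M' K)) :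
    iotaAlg M' K x ∈ gaussRing (AK A K) ↔ (FK M' K).val x ∈ gaussRing (AK A K) :=
  (isoM A K M' q hπ hqM x).symm

theorem iota2Alg_beta (x : ↥(FK M' K)) :
    iota2Alg K M' q (beta K M' q x) = iotaAlg M' K x :=
  Fermat.Agent.ES.N34.FrickeV11.iota2_beta (K := K) M' q x

theorem val_beta (x : ↥(FK M' K)) :
    (FK (M' * q) K).val (beta K M' q x) = qExpand (↥K) q ((FK M' K).val x) := coe_beta K M' q x

theorem iota2Alg_jN_mem : iota2Alg K M' q (jN K (M' * q)) ∈ gaussRing (AK A K) := by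
  have h : iota2Alg K M' q (jN K (M' * q)) = qExpand (↥K) (M' * q) (jqModC ↥K) :=
    iotaAlg_jN K (M' * q)
  rw [h]; exact jqd_mem_gaussRing (AK A K) (M' * q)

theorem val_jN_mem : (FK (M' * q) K).val (jN K (M' * q)) ∈ gaussRing (AK A K) :=
  jqd_mem_gaussRing (AK A K) 1

theorem gaussRed_val_jN_ne_zero :
    gaussRed (AK A K) ⟨(FK (M' * q) K).val (jN K (M' * q)), val_jN_mem M' q⟩ ≠ 0 :=
  gaussRed_jqd_ne_zero (AK A K) 1

theorem gaussRed_val_jN_order :
    IsCoprime (gaussRed (AK A K)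
      ⟨(FK (M' * q) K).val (jN K (M' * q)), val_jN_mem M' q⟩).order (q : ℤ) :=
  order_coprime_jq q

theorem iotaAlg_jN_M_mem : iotaAlg M' K (jN K M') ∈ gaussRing (AK A K) := by
  rw [iotaAlg_jN]; exact jqd_mem_gaussRing (AK A K) M'

theorem kron_beta (hu : IsUnif (AK A K) π) :
    ∃ g ∈ gaussRing (AK A K),
      (FK (M' * q) K).val (jN K (M' * q)) ^ q - qExpand (↥K) q ((FK M' K).val (jN K M')) =
        HahnSeries.C ((π : ↥(AK A K)) : ↥K) * g :=
  kron_j' q hu

theorem finrankAlong_beta' (hqM : ¬ q ∣ M') : finrankAlong ↥K (beta K M' q) = q + 1 :=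
  Fermat.Agent.ES.HECKE.AlongDegree25.finrankAlong_beta (↥K) M' q hq.out hqM

/-- **(K2) datum along `beta`**, rings `(O2, O1)`, `K`-form of `ϖ`. -/
theorem nonempty_k2Datum_beta_K (hπ : Irreducible π) (hu : IsUnif (AK A K) π) (hqM : ¬ q ∣ M')
    (hE : FK (M' * q) K ≤ fracField (AK A K)) :
    letI := algebraAlong (beta K M' q)
    Nonempty (K2Datum (algebraMap ↥K ↥(FK M' K) ((π : ↥(AK A K)) : ↥K)) q
      (O2 M' q hu hE) (O1 M' q hu hE)) :=
  nonempty_k2Datum_along (beta K M' q) hπ q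
    (isGaussPullback_O2 M' q hu hE) (isGaussPullback_O1 M' q hu hE)
    (Fermat.Agent.ES.N34.OneNeTwo3.o1_ne_o2 M' q hu hE).symm
    (iotaAlg M' K) (FK M' K).val
    (val_mem_fracField M')
    (iso_iotaAlg_val M' q hπ hqM)
    (iota2Alg_beta M' q)
    (val_beta M' q)
    (jN K (M' * q)) (iota2Alg_jN_mem M' q) (val_jN_mem M' q)
    (gaussRed_val_jN_ne_zero M' q) (gaussRed_val_jN_order M' q)
    (jN K M') (iotaAlg_jN_M_mem M') (kron_beta M' q hu) (finrankAlong_beta' M' q hqM)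

/-! ### The shape of `Toric98.k2_of_datum`: `ϖ = algebraMap R F₀ π`, `R = A ∩ K` -/

theorem algebraMap_AK_eq (N : ℕ) (r : ↥(AK A K)) :
    algebraMap ↥(AK A K) ↥(FK N K) r = algebraMap ↥K ↥(FK N K) ((r : ↥(AK A K)) : ↥K) := rfl

/-- **(K2) datum along `alpha`**, rings `(O1, O2)`. -/
theorem nonempty_k2Datum_alpha (hπ : Irreducible π) (hu : IsUnif (AK A K) π) (hqM : ¬ q ∣ M')
    (hE : FK (M' * q) K ≤ fracField (AK A K)) :
    letI := algebraAlong (alpha K M' q)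
    Nonempty (K2Datum (algebraMap ↥(AK A K) ↥(FK M' K) π) q (O1 M' q hu hE) (O2 M' q hu hE)) := by
  rw [algebraMap_AK_eq]
  exact nonempty_k2Datum_alpha_K M' q hπ hu hqM hE

/-- **(K2) datum along `beta`**, rings `(O2, O1)`. -/
theorem nonempty_k2Datum_beta (hπ : Irreducible π) (hu : IsUnif (AK A K) π) (hqM : ¬ q ∣ M')
    (hE : FK (M' * q) K ≤ fracField (AK A K)) :
    letI := algebraAlong (beta K M' q)
    Nonempty (K2Datum (algebraMap ↥(AK A K) ↥(FK M' K) π) q (O2 M' q hu hE) (O1 M' q hu hE)) := by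
  rw [algebraMap_AK_eq]
  exact nonempty_k2Datum_beta_K M' q hπ hu hqM hE

/-- a chosen (K2) datum along `alpha`. -/
def k2DatumAlpha (hπ : Irreducible π) (hu : IsUnif (AK A K) π) (hqM : ¬ q ∣ M')
    (hE : FK (M' * q) K ≤ fracField (AK A K)) :
    letI := algebraAlong (alpha K M' q)
    K2Datum (algebraMap ↥(AK A K) ↥(FK M' K) π) q (O1 M' q hu hE) (O2 M' q hu hE) :=
  Classical.choice (nonempty_k2Datum_alpha M' q hπ hu hqM hE)

/-- a chosen (K2) datum along `beta`. -/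
def k2DatumBeta (hπ : Irreducible π) (hu : IsUnif (AK A K) π) (hqM : ¬ q ∣ M')
    (hE : FK (M' * q) K ≤ fracField (AK A K)) :
    letI := algebraAlong (beta K M' q)
    K2Datum (algebraMap ↥(AK A K) ↥(FK M' K) π) q (O2 M' q hu hE) (O1 M' q hu hE) :=
  Classical.choice (nonempty_k2Datum_beta M' q hπ hu hqM hE)

end Fermat.Agent.T1B.K2Model16
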